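import Fermat.Agent.PrimeProgressionCount.Grid
import Fermat.Agent.ThreePrimesClasses.Arcs

/-!
# The circle method for three-term progressions of primes

`∑_{i + k = 2 j} Λ i Λ j Λ k = 𝔖 N² / 2 + O (N² / (log N) ^ e)` for large `N`, where `𝔖` is the
singular series of `2`: the integrand is `T (x) ² conj (T (2 x))` on the points `h / (6 N)`.
-/

set_option autoImplicit false

noncomputable section

namespace FA.PrimeProgressionCount

open Finset Complex ArithmeticFunction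
open FA.ThreePrimes (eAdd nearDist clip trigSum geomSum twist arc arcCentres centre moebiusR
  unitResidues)
open FA.AlmostGoldbach (pairTerm pairSeries pairConst)
open FA.PrimeLinearEquation (arcCoeff)
open scoped Real ComplexConjugate

/-- The main summand. -/
def progMain (N : ℕ) (y : ℝ) : ℂ := geomSum N y * geomSum N y * conj (geomSum N (2 * y))

theorem sum_progMain_grid {N M : ℕ} (hM : 2 * N < M) (θ : ℝ) :
    ∑ h ∈ range M, progMain N ((h : ℝ) / M + θ) =
      M * ((progWeight (fun _ => 1) (fun _ => 1) (fun _ => 1) N : ℝ) : ℂ) := by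
  rw [← sum_prog_grid _ _ _ hM θ]
  refine sum_congr rfl fun h _ => ?_
  simp only [progMain, geomSum, trigSum, Complex.ofReal_one, one_mul]
  rfl

theorem norm_geomSum_le (N : ℕ) (y : ℝ) : ‖geomSum N y‖ ≤ N := by
  refine (norm_sum_le _ _).trans (le_of_eq ?_)
  simp [ThreePrimes.norm_eAdd]

theorem abs_moebiusR_div_le {q : ℕ} (hq : 0 < q) : |moebiusR q / (q.totient : ℝ)| ≤ 1 := by
  rw [abs_div, Nat.abs_cast]
  exact div_le_one_of_le₀ ((ThreePrimes.abs_moebiusR_le q).trans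
    (by exact_mod_cast Nat.totient_pos.2 hq)) (Nat.cast_nonneg _)

/-- **The doubled sum on an arc.** -/
theorem exists_double_major (B D : ℕ) : ∃ C : ℝ, 0 < C ∧ ∀ (N q r : ℕ) (β : ℝ), 2 ≤ N → 0 < q →
    q.Coprime r → (q : ℝ) ≤ Real.log N ^ B → 2 * |β| * N ≤ Real.log N ^ B →
      ‖twist (2 * ((r : ℝ) / q + β)) Λ N - (arcCoeff 2 q : ℂ) * geomSum N (2 * β)‖ ≤
        C * (N / Real.log N ^ D) := by
  obtain ⟨C, hC, hmaj⟩ := ThreePrimes.exists_major_approx B D
  refine ⟨C, hC, fun N q r β hN hq hcop hqB hβ => ?_⟩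
  obtain ⟨g, hg⟩ : ∃ g, g = q.gcd 2 := ⟨_, rfl⟩
  have hg0 : 0 < g := hg ▸ Nat.gcd_pos_of_pos_left 2 hq
  obtain ⟨q', hq'⟩ : g ∣ q := hg ▸ Nat.gcd_dvd_left q 2
  obtain ⟨a', ha'⟩ : g ∣ 2 := hg ▸ Nat.gcd_dvd_right q 2
  have hq'0 : 0 < q' := Nat.pos_of_mul_pos_left (hq' ▸ hq : 0 < g * q')
  have : NeZero q' := ⟨hq'0.ne'⟩
  have hcop' : a'.Coprime q' := by
    have := Nat.coprime_div_gcd_div_gcd (m := q) (n := 2) (hg ▸ hg0)
    rw [← hg, hq', ha', Nat.mul_div_cancel_left _ hg0, Nat.mul_div_cancel_left _ hg0] at this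
    exact this.symm
  have hr : r.Coprime q' := hcop.symm.coprime_dvd_right (hq' ▸ dvd_mul_left q' g)
  have hunit : IsUnit (((a' * r : ℕ) : ℤ) : ZMod q') := by
    rw [Int.cast_natCast]
    exact (ZMod.isUnit_iff_coprime _ q').2 (hcop'.mul_left hr)
  have hqq : (q' : ℝ) ≤ Real.log N ^ B :=
    le_trans (Nat.cast_le.2 (hq' ▸ Nat.le_mul_of_pos_left q' hg0)) hqB
  have happ := hmaj N q' ((a' * r : ℕ) : ℤ) (2 * β) hN hunit hqq
    (by rwa [abs_mul, abs_two])
  have hα : 2 * ((r : ℝ) / q + β) = (((a' * r : ℕ) : ℤ) : ℝ) / q' + 2 * β := by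
    have hqr : (q : ℝ) = g * q' := by exact_mod_cast hq'
    have har : (2 : ℝ) = g * a' := by exact_mod_cast ha'
    have : (g : ℝ) ≠ 0 := Nat.cast_ne_zero.2 hg0.ne'
    have : (q' : ℝ) ≠ 0 := Nat.cast_ne_zero.2 hq'0.ne'
    push_cast
    rw [hqr, mul_add]
    conv_lhs => arg 1; rw [har]
    field_simp
  have hcoef : arcCoeff 2 q = moebiusR q' / (q'.totient : ℝ) := by
    rw [arcCoeff, ← hg, hq', Nat.mul_div_cancel_left q' hg0]
  rwa [hα, hcoef]

/-- **The asymptotic formula for large `N`.** -/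
theorem exists_prog_asymptotic_large (e : ℕ) : ∃ (C : ℝ) (N₀ : ℕ), 0 < C ∧ ∀ N : ℕ, N₀ ≤ N →
    |progWeight (Λ ·) (Λ ·) (Λ ·) N - pairSeries 2 * ((N : ℝ) ^ 2 / 2)| ≤
      C * ((N : ℝ) ^ 2 / Real.log N ^ e) := by
  obtain ⟨b, hb⟩ : ∃ b, b = 2 * e + 6 := ⟨_, rfl⟩
  obtain ⟨C₁, hC₁, hmin⟩ := ThreePrimes.exists_minor_le b
  obtain ⟨C₂, hC₂, hmaj⟩ := ThreePrimes.exists_major_approx (2 * b + 1) (6 * b + 1 + e)
  obtain ⟨C₃, hC₃, hdbl⟩ := exists_double_major (2 * b + 1) (6 * b + 1 + e)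
  obtain ⟨K, hK, hpow⟩ := ThreePrimes.exists_log_pow_le (6 * b)
  obtain ⟨K', hK', hpow'⟩ := ThreePrimes.exists_log_pow_le e
  have hPC := AlmostGoldbach.pairConst_nonneg
  refine ⟨6 * C₁ + 2000 * (C₂ + C₂ + C₃) + 20 * pairConst + 4 * pairConst + 4 * pairConst * K' + 1,
    max ⌈(2 * K + 1) ^ 2⌉₊ 8, by positivity, fun N hN => ?_⟩
  have hN8 : 8 ≤ N := le_trans (le_max_right _ _) hN
  have hN1 : (1 : ℝ) ≤ N := by exact_mod_cast (show 1 ≤ N by omega)
  obtain ⟨l, hl⟩ : ∃ l, l = Real.log N := ⟨_, rfl⟩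
  have hl2 : 2 ≤ l := by
    rw [hl, Real.le_log_iff_exp_le (by linarith), show (2 : ℝ) = ((2 : ℕ) : ℝ) * 1 by norm_num,
      Real.exp_nat_mul]
    have h8 : (8 : ℝ) ≤ N := by exact_mod_cast hN8
    refine le_trans ?_ h8
    nlinarith [Real.exp_pos 1, Real.exp_one_lt_d9]
  have hl1 : 1 ≤ l := by linarith
  have hl0 : 0 < l := by linarith
  rw [← hl]
  obtain ⟨R, hR⟩ : ∃ R, R = l ^ (2 * b) := ⟨_, rfl⟩
  have hR1 : 1 ≤ R := hR ▸ one_le_pow₀ hl1
  have hR3 : 2 * R ^ 3 < N := by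
    have h1 : (2 * K + 1) ^ 2 ≤ (N : ℝ) :=
      (Nat.le_ceil _).trans (Nat.cast_le.2 (le_trans (le_max_left _ _) hN))
    have h2 : 2 * K < √(N : ℝ) := by
      rw [Real.lt_sqrt (by positivity)]
      nlinarith
    rw [hR, ← pow_mul, show 2 * b * 3 = 6 * b by ring]
    calc 2 * l ^ (6 * b) ≤ 2 * K * √(N : ℝ) := by
          rw [mul_assoc]
          exact mul_le_mul_of_nonneg_left (hl ▸ hpow N hN1) two_pos.le
      _ < √(N : ℝ) * √(N : ℝ) := mul_lt_mul_of_pos_right h2 (Real.sqrt_pos.2 (by linarith))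
      _ = N := Real.mul_self_sqrt (Nat.cast_nonneg N)
  have hRN : R ≤ N := by
    have : R ≤ R ^ 3 := le_self_pow₀ hR1 (by norm_num)
    linarith
  obtain ⟨P, hP⟩ : ∃ P, P = ⌊R⌋₊ := ⟨_, rfl⟩
  have hPR : (P : ℝ) ≤ R := hP ▸ Nat.floor_le (by linarith)
  have hP0 : 0 < (P : ℝ) := Nat.cast_pos.2 (hP ▸ Nat.floor_pos.2 hR1)
  obtain ⟨M, hM⟩ : ∃ M, M = 2 * (3 * N) := ⟨_, rfl⟩
  have : NeZero M := ⟨by omega⟩
  have hM' : (M : ℝ) = 6 * N := by rw [hM]; push_cast; ring
  have hM0 : (0 : ℝ) < M := Nat.cast_pos.2 (NeZero.pos M)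
  have hlogM : 1 + Real.log M ≤ 4 * l := by
    rw [hM', Real.log_mul (by norm_num) (by linarith), ← hl]
    have : Real.log 6 ≤ 5 := by
      rw [Real.log_le_iff_le_exp (by norm_num)]
      linarith [Real.add_one_le_exp 5]
    linarith
  obtain ⟨δ, hδ⟩ : ∃ δ, δ = R / N := ⟨_, rfl⟩
  have hδ0 : 0 < δ := by rw [hδ]; positivity
  have hdisj : ((arcCentres P : Finset _) : Set (Σ _ : ℕ, ℕ)).PairwiseDisjoint (arc M δ) := by
    intro z hz w hw hne
    rw [Function.onFun, disjoint_left]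
    intro h h1 h2
    rw [arc, mem_filter] at h1 h2
    have h3 := (ThreePrimes.inv_mul_le_nearDist_centre hz hw hne).trans
      ((ThreePrimes.nearDist_sub_sub_le _ _ _).trans (add_le_add h1.2 h2.2))
    rw [hδ, div_le_iff₀ (by positivity)] at h3
    have h4 : (R / N + R / N) * ((P : ℝ) * P) ≤ (R / N + R / N) * (R * R) :=
      mul_le_mul_of_nonneg_left (mul_le_mul hPR hPR hP0.le (by linarith)) (by positivity)
    have h5 : (R / N + R / N) * (R * R) < 1 := by
      rw [show (R / N + R / N) * (R * R) = 2 * R ^ 3 / N by ring, div_lt_one (by linarith)]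
      exact hR3
    linarith
  obtain ⟨F, hF⟩ : ∃ F : ℕ → ℂ, F = fun h : ℕ =>
      twist ((h : ℝ) / M) Λ N * twist ((h : ℝ) / M) Λ N *
        conj (twist (2 * ((h : ℝ) / M)) Λ N) := ⟨_, rfl⟩
  obtain ⟨minor, hminor⟩ : ∃ s, s = (range M) \ (arcCentres P).biUnion (arc M δ) := ⟨_, rfl⟩
  obtain ⟨c, hc⟩ : ∃ c : (Σ _ : ℕ, ℕ) → ℝ, c = fun z =>
      (moebiusR z.1 / z.1.totient) ^ 2 * arcCoeff 2 z.1 := ⟨_, rfl⟩
  -- the total
  have htotal : ∑ h ∈ range M, F h = M * ((progWeight (Λ ·) (Λ ·) (Λ ·) N : ℝ) : ℂ) := by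
    rw [← sum_prog_grid _ _ _ (show 2 * N < M by omega) 0, hF]
    refine sum_congr rfl fun h _ => ?_
    simp only [add_zero, ThreePrimes.twist_eq_trigSum]
  have hdecomp : ∑ h ∈ range M, F h =
      ∑ h ∈ minor, F h + ∑ z ∈ arcCentres P, ∑ h ∈ arc M δ z, F h := by
    rw [← sum_biUnion hdisj, hminor, sum_sdiff]
    exact biUnion_subset.2 fun z _ => filter_subset _ _
  -- the minor arcs
  have hΛsq : ∑ n ∈ Icc 1 N, ‖((Λ n : ℝ) : ℂ)‖ ^ 2 ≤ 6 * N * l := by
    refine (sum_le_sum (g := fun n => l * Λ n) fun n hn => ?_).trans ?_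
    · rw [mem_Icc] at hn
      rw [Complex.norm_real, Real.norm_eq_abs, sq_abs, sq, hl]
      exact mul_le_mul_of_nonneg_right (vonMangoldt_le_log.trans
        (Real.log_le_log (Nat.cast_pos.2 hn.1) (Nat.cast_le.2 hn.2))) vonMangoldt_nonneg
    · rw [← mul_sum, mul_comm _ l]
      exact mul_le_mul_of_nonneg_left (ThreePrimes.sum_vonMangoldt_le N) hl0.le
  have p1 : ‖∑ h ∈ minor, F h‖ ≤ C₁ * (N * l ^ 4 / l ^ b) * (M * (6 * N * l)) := by
    refine (norm_sum_le _ _).trans ((sum_le_sum (g := fun h : ℕ =>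
      C₁ * (N * l ^ 4 / l ^ b) * (1 / 2 * ‖twist ((h : ℝ) / M) Λ N‖ ^ 2 +
        1 / 2 * ‖twist (2 * ((h : ℝ) / M)) Λ N‖ ^ 2)) fun h hh => ?_).trans ?_)
    · rw [hminor, mem_sdiff, mem_biUnion] at hh
      rw [hF, norm_mul, Complex.norm_conj, norm_mul, mul_assoc]
      have h0 := hmin N P ((h : ℝ) / M) (hl ▸ hl1) (hl ▸ hR ▸ hRN) (by rw [hP, hR, hl])
        fun z hz => ?_
      · rw [← hl] at h0
        refine mul_le_mul h0 ?_ (mul_nonneg (norm_nonneg _) (norm_nonneg _)) (by positivity)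
        linarith [two_mul_le_add_sq ‖twist ((h : ℝ) / M) Λ N‖
          ‖twist (2 * ((h : ℝ) / M)) Λ N‖]
      · rw [← hl, ← hR, ← hδ]
        by_contra hle
        exact hh.2 ⟨z, hz, mem_filter.2 ⟨hh.1, not_lt.1 hle⟩⟩
    · rw [← mul_sum, sum_add_distrib, ← mul_sum, ← mul_sum]
      refine mul_le_mul_of_nonneg_left ?_ (by positivity)
      have s1 : ∑ h ∈ minor, ‖twist ((h : ℝ) / M) Λ N‖ ^ 2 ≤ M * (6 * N * l) := by
        refine (sum_le_sum_of_subset_of_nonneg (hminor ▸ sdiff_subset)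
          fun i _ _ => sq_nonneg _).trans ?_
        simp only [ThreePrimes.twist_eq_trigSum]
        rw [ThreePrimes.sum_norm_sq_grid (fun n => (Λ n : ℂ)) (show N < M by omega)]
        exact mul_le_mul_of_nonneg_left hΛsq (Nat.cast_nonneg M)
      have s2 : ∑ h ∈ minor, ‖twist (2 * ((h : ℝ) / M)) Λ N‖ ^ 2 ≤ M * (6 * N * l) := by
        refine (sum_le_sum_of_subset_of_nonneg (hminor ▸ sdiff_subset)
          fun i _ _ => sq_nonneg _).trans ?_
        simp only [ThreePrimes.twist_eq_trigSum]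
        have h2 := PrimeLinearEquation.sum_norm_sq_mul_grid (fun n => (Λ n : ℂ)) (a := 2)
          two_pos (show N < 3 * N by omega)
        rw [← hM, Nat.cast_two] at h2
        rw [h2, show (M : ℝ) * (6 * N * l) = 2 * (((3 * N : ℕ) : ℝ) * (6 * N * l)) by
          rw [hM']; push_cast; ring]
        exact mul_le_mul_of_nonneg_left (mul_le_mul_of_nonneg_left hΛsq (Nat.cast_nonneg _))
          two_pos.le
      linarith
  -- one major arc
  have p2 : ∀ z ∈ arcCentres P, ∀ h ∈ arc M δ z,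
      ‖F h - (c z : ℂ) * progMain N ((h : ℝ) / M + -centre z)‖ ≤
        36 * N ^ 2 * ((C₂ + C₂ + C₃) * (N / l ^ (6 * b + 1 + e))) := by
    rintro ⟨q, r⟩ hz h hh
    rw [ThreePrimes.mem_arcCentres] at hz
    obtain ⟨⟨hq1, hqP⟩, -, hcop⟩ := hz
    simp only at hq1 hqP hcop
    have : NeZero q := ⟨by omega⟩
    rw [arc, mem_filter, nearDist] at hh
    obtain ⟨k, hk⟩ : ∃ k, k = round ((h : ℝ) / M - centre ⟨q, r⟩) := ⟨_, rfl⟩
    obtain ⟨β, hβ⟩ : ∃ β, β = (h : ℝ) / M - centre ⟨q, r⟩ - k := ⟨_, rfl⟩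
    rw [← hk, ← hβ] at hh
    have hx : (h : ℝ) / M = (r : ℝ) / q + β + k := by
      rw [hβ, centre]
      ring
    have hper : twist ((h : ℝ) / M) Λ N = twist ((r : ℝ) / q + β) Λ N := by
      rw [ThreePrimes.twist_eq_trigSum, ThreePrimes.twist_eq_trigSum, hx,
        PrimeLinearEquation.trigSum_add_intCast]
    have hper2 : twist (2 * ((h : ℝ) / M)) Λ N = twist (2 * ((r : ℝ) / q + β)) Λ N := by
      rw [ThreePrimes.twist_eq_trigSum, ThreePrimes.twist_eq_trigSum, hx,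
        show 2 * ((r : ℝ) / q + β + k) = 2 * ((r : ℝ) / q + β) + ((2 * k : ℤ) : ℝ) by
          push_cast; ring, PrimeLinearEquation.trigSum_add_intCast]
    have hRL : R ≤ l ^ (2 * b + 1) := by
      rw [hR, pow_succ]
      exact le_mul_of_one_le_right (by positivity) hl1
    have hqL : (q : ℝ) ≤ l ^ (2 * b + 1) := ((Nat.cast_le.2 hqP).trans hPR).trans hRL
    have hβR : |β| * N ≤ R := by
      rw [← le_div_iff₀ (by linarith), ← hδ]
      exact hh.2
    have hunit : IsUnit (((r : ℕ) : ℤ) : ZMod q) := by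
      rw [Int.cast_natCast]
      exact (ZMod.isUnit_iff_coprime r q).2 hcop.symm
    have happ := hmaj N q (r : ℤ) β (by omega) hunit (hl ▸ hqL) (hl ▸ hβR.trans hRL)
    rw [Int.cast_natCast, ← hper, ← hl] at happ
    have hdap := hdbl N q r β (by omega) (by omega) hcop (hl ▸ hqL) (by
      rw [← hl, mul_assoc, pow_succ, ← hR, mul_comm R]
      exact mul_le_mul hl2 hβR (by positivity) hl0.le)
    rw [← hper2, ← hl] at hdap
    rw [hF, hc]
    simp only
    rw [progMain, ← sub_eq_add_neg, ← ThreePrimes.geomSum_sub_intCast N _ k, ← hβ,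
      show geomSum N (2 * ((h : ℝ) / M - centre ⟨q, r⟩)) = geomSum N (2 * β) by
        rw [← ThreePrimes.geomSum_sub_intCast N _ (2 * k), hβ]
        push_cast
        ring_nf]
    obtain ⟨u, hu⟩ : ∃ u : ℝ, u = moebiusR q / q.totient := ⟨_, rfl⟩
    rw [← hu] at happ ⊢
    rw [show ((u ^ 2 * arcCoeff 2 q : ℝ) : ℂ) * (geomSum N β * geomSum N β *
        conj (geomSum N (2 * β))) = (u : ℂ) * geomSum N β * ((u : ℂ) * geomSum N β) *
          ((arcCoeff 2 q : ℂ) * conj (geomSum N (2 * β))) by push_cast; ring]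
    have hy : ‖(u : ℂ) * geomSum N β‖ ≤ 6 * N := by
      rw [norm_mul, Complex.norm_real, Real.norm_eq_abs, hu]
      refine (mul_le_of_le_one_left (norm_nonneg _) (abs_moebiusR_div_le hq1)).trans ?_
      linarith [norm_geomSum_le N β]
    have hT := ThreePrimes.norm_twist_le ((h : ℝ) / M) N
    have hU : ‖conj (twist (2 * ((h : ℝ) / M)) Λ N)‖ ≤ 6 * N := by
      rw [Complex.norm_conj]
      exact ThreePrimes.norm_twist_le _ N
    have hd3 : ‖conj (twist (2 * ((h : ℝ) / M)) Λ N) -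
        (arcCoeff 2 q : ℂ) * conj (geomSum N (2 * β))‖ ≤ C₃ * (N / l ^ (6 * b + 1 + e)) := by
      rw [← Complex.conj_ofReal, ← map_mul, ← map_sub, Complex.norm_conj]
      exact hdap
    refine (ThreePrimesClasses.norm_mul₃_sub_le hT hU hy hy).trans ?_
    refine (mul_le_mul_of_nonneg_left (add_le_add (add_le_add happ happ) hd3)
      (sq_nonneg _)).trans (le_of_eq ?_)
    ring
  have hpairs : ((arcCentres P).card : ℝ) ≤ R ^ 2 := by
    have h1 : (arcCentres P).card ≤ P * P := by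
      rw [arcCentres, card_sigma]
      refine (sum_le_card_nsmul _ _ P fun q hq => ?_).trans (le_of_eq ?_)
      · rw [ThreePrimes.card_unitResidues]
        exact (Nat.totient_le q).trans (mem_Icc.1 hq).2
      · simp
    refine (Nat.cast_le.2 h1).trans ?_
    push_cast
    rw [sq]
    exact mul_le_mul hPR hPR (Nat.cast_nonneg P) (by linarith)
  have p3 : ‖∑ z ∈ arcCentres P, ∑ h ∈ arc M δ z,
      (F h - (c z : ℂ) * progMain N ((h : ℝ) / M + -centre z))‖ ≤
        R ^ 2 * (101 * R * l) * (36 * N ^ 2 * ((C₂ + C₂ + C₃) * (N / l ^ (6 * b + 1 + e)))) := by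
    refine (norm_sum_le _ _).trans ((sum_le_card_nsmul _ _
      (101 * R * l * (36 * N ^ 2 * ((C₂ + C₂ + C₃) * (N / l ^ (6 * b + 1 + e)))))
      fun z hz => ?_).trans ?_)
    · refine (norm_sum_le _ _).trans ((sum_le_card_nsmul _ _ _ (p2 z hz)).trans ?_)
      rw [nsmul_eq_mul]
      refine mul_le_mul_of_nonneg_right ((ThreePrimes.card_arc_le hδ0 z).trans ?_)
        (by positivity)
      have h1 : 4 * (M : ℝ) * δ * (1 + Real.log M) ≤ 24 * R * (4 * l) := by
        refine le_trans (le_of_eq ?_) (mul_le_mul_of_nonneg_left hlogM (by positivity))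
        rw [hM', hδ]
        field_simp
        ring
      have h2 : 1 * 1 ≤ R * l := mul_le_mul hR1 hl1 zero_le_one (by linarith)
      linarith
    · rw [nsmul_eq_mul, mul_assoc (R ^ 2)]
      exact mul_le_mul_of_nonneg_right hpairs (by positivity)
  -- the tails of the main summand
  have hcsum : ∑ z ∈ arcCentres P, ‖(c z : ℂ)‖ ≤ 2 * pairConst := by
    rw [arcCentres, sum_sigma]
    have h1 := AlmostGoldbach.sum_abs_pairTerm_le (n := 2) two_ne_zero 0 P
    rw [Nat.prime_two.divisors, card_pair (by norm_num), Nat.cast_one, Real.one_rpow,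
      mul_one, Nat.cast_ofNat] at h1
    refine le_trans (le_of_eq ?_) (h1.trans (le_of_eq (by ring)))
    rw [show Ioc 0 P = Icc 1 P from rfl]
    refine sum_congr rfl fun q hq => ?_
    rw [← totient_mul_coeff (mem_Icc.1 hq).1, abs_mul, Nat.abs_cast, hc]
    simp only [Complex.norm_real, Real.norm_eq_abs, sum_const, ThreePrimes.card_unitResidues,
      nsmul_eq_mul]
  have p4 : ∀ z ∈ arcCentres P, ‖∑ h ∈ range M \ arc M δ z,
      progMain N ((h : ℝ) / M + -centre z)‖ ≤ 30 * N ^ 3 * l / R := by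
    intro z _
    obtain ⟨Z, hZ⟩ : ∃ Z, Z = 1 / (2 * δ) := ⟨_, rfl⟩
    have hZ0 : 0 < Z := by rw [hZ]; positivity
    refine (norm_sum_le _ _).trans ((sum_le_sum (g := fun h : ℕ =>
      (N : ℝ) * (Z * clip Z ((h : ℝ) / M - centre z))) fun h hh => ?_).trans ?_)
    · rw [mem_sdiff, arc, mem_filter, not_and, not_le] at hh
      have hd := hh.2 hh.1
      rw [← sub_eq_add_neg, progMain, norm_mul, norm_mul, Complex.norm_conj, mul_comm (N : ℝ)]
      have h1 := ThreePrimes.norm_geom_le ((h : ℝ) / M - centre z) 0 N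
      have h2 : clip ((N - 0 : ℕ) : ℝ) ((h : ℝ) / M - centre z) ≤
          1 / (2 * nearDist ((h : ℝ) / M - centre z)) :=
        ThreePrimes.clip_le_inv (hδ0.trans hd) le_rfl
      have h3 : 1 / (2 * nearDist ((h : ℝ) / M - centre z)) ≤ Z :=
        hZ ▸ one_div_le_one_div_of_le (by positivity) (by linarith)
      have h4 : clip Z ((h : ℝ) / M - centre z) =
          1 / (2 * nearDist ((h : ℝ) / M - centre z)) := by
        rw [clip, if_neg (by linarith), min_eq_right h3]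
      rw [h4]
      have h5 : ‖geomSum N ((h : ℝ) / M - centre z)‖ ≤
          1 / (2 * nearDist ((h : ℝ) / M - centre z)) := h1.trans h2
      refine mul_le_mul (mul_le_mul (h5.trans h3) h5 (norm_nonneg _) hZ0.le)
        (norm_geomSum_le N _) (norm_nonneg _) (mul_nonneg hZ0.le ?_)
      exact (norm_nonneg _).trans h5
    · rw [← mul_sum, ← mul_sum]
      refine (mul_le_mul_of_nonneg_left (mul_le_mul_of_nonneg_left
        ((sum_le_sum_of_subset_of_nonneg sdiff_subset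
          fun i _ _ => ThreePrimes.clip_nonneg hZ0.le _).trans
            (ThreePrimes.sum_clip_grid_le (centre z) hZ0.le)) hZ0.le) (Nat.cast_nonneg N)).trans ?_
      have hZN : Z = N / (2 * R) := by
        rw [hZ, hδ]
        field_simp
      rw [hZN]
      calc (N : ℝ) * ((N : ℝ) / (2 * R) * (5 * (N / (2 * R)) + 2 * M * (1 + Real.log M)))
          ≤ (N : ℝ) * ((N : ℝ) / (2 * R) * (5 * (N / 2) * l + 2 * (6 * N) * (4 * l))) := by
            refine mul_le_mul_of_nonneg_left (mul_le_mul_of_nonneg_left (add_le_add ?_ ?_)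
              (by positivity)) (Nat.cast_nonneg N)
            · have h2 : (N : ℝ) / (2 * R) ≤ N / 2 :=
                div_le_div_of_nonneg_left (Nat.cast_nonneg N) two_pos (by linarith)
              calc 5 * ((N : ℝ) / (2 * R)) ≤ 5 * (N / 2) * 1 := by linarith
                _ ≤ _ := mul_le_mul_of_nonneg_left hl1 (by positivity)
            · rw [← hM']
              exact mul_le_mul_of_nonneg_left hlogM (by positivity)
        _ = 101 / 4 * ((N : ℝ) ^ 3 * l / R) := by field_simp; ring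
        _ ≤ _ := by
            have : 0 ≤ (N : ℝ) ^ 3 * l / R := by positivity
            rw [show 30 * (N : ℝ) ^ 3 * l / R = 30 * ((N : ℝ) ^ 3 * l / R) by ring]
            linarith
  have p5 : ‖∑ z ∈ arcCentres P, (c z : ℂ) *
      ∑ h ∈ range M \ arc M δ z, progMain N ((h : ℝ) / M + -centre z)‖ ≤
        2 * pairConst * (30 * N ^ 3 * l / R) := by
    refine (norm_sum_le _ _).trans ((sum_le_sum fun z hz => ?_).trans
      ((sum_mul _ _ _).ge.trans (mul_le_mul_of_nonneg_right hcsum (by positivity))))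
    rw [norm_mul]
    exact mul_le_mul_of_nonneg_left (p4 z hz) (norm_nonneg _)
  -- the singular series
  obtain ⟨S, hS⟩ : ∃ S, S = ∑ q ∈ Icc 1 P, pairTerm 2 q := ⟨_, rfl⟩
  have hcval : ∑ z ∈ arcCentres P, (c z : ℂ) = (S : ℂ) := by
    rw [arcCentres, sum_sigma, hS, Complex.ofReal_sum]
    refine sum_congr rfl fun q hq => ?_
    rw [← totient_mul_coeff (mem_Icc.1 hq).1, hc]
    simp [ThreePrimes.card_unitResidues]
  obtain ⟨J, hJ⟩ : ∃ J : ℝ, J = progWeight (fun _ => 1) (fun _ => 1) (fun _ => 1) N := ⟨_, rfl⟩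
  have hident : ∑ h ∈ range M, F h - (M : ℂ) * (J : ℂ) * ∑ z ∈ arcCentres P, (c z : ℂ) =
      ∑ h ∈ minor, F h + ∑ z ∈ arcCentres P, ∑ h ∈ arc M δ z,
          (F h - (c z : ℂ) * progMain N ((h : ℝ) / M + -centre z)) -
        ∑ z ∈ arcCentres P, (c z : ℂ) *
          ∑ h ∈ range M \ arc M δ z, progMain N ((h : ℝ) / M + -centre z) := by
    have h1 : ∀ z ∈ arcCentres P, (M : ℂ) * (J : ℂ) * (c z : ℂ) =
        ∑ h ∈ arc M δ z, (c z : ℂ) * progMain N ((h : ℝ) / M + -centre z) +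
          (c z : ℂ) * ∑ h ∈ range M \ arc M δ z, progMain N ((h : ℝ) / M + -centre z) := by
      intro z _
      rw [← mul_sum, ← mul_add, add_comm (∑ h ∈ arc M δ z, _), sum_sdiff
        (show arc M δ z ⊆ range M from filter_subset _ _),
        sum_progMain_grid (show 2 * N < M by omega), hJ]
      ring
    rw [mul_sum, sum_congr rfl h1, sum_add_distrib, hdecomp]
    simp only [sum_sub_distrib]
    ring
  obtain ⟨E, hE⟩ : ∃ E : ℝ, E = (N : ℝ) ^ 2 / l ^ e := ⟨_, rfl⟩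
  rw [← hE]
  have hE0 : 0 ≤ E := by rw [hE]; positivity
  have q1 : C₁ * (N * l ^ 4 / l ^ b) * (M * (6 * N * l)) ≤ M * (6 * C₁ * E) := by
    rw [show C₁ * (N * l ^ 4 / l ^ b) * ((M : ℝ) * (6 * N * l)) =
      M * (6 * C₁ * ((N : ℝ) ^ 2 * l ^ 5 / l ^ b)) by ring, hE]
    refine mul_le_mul_of_nonneg_left (mul_le_mul_of_nonneg_left ?_ (by positivity)) hM0.le
    rw [div_le_div_iff₀ (by positivity) (by positivity), mul_assoc, ← pow_add]
    exact mul_le_mul_of_nonneg_left (pow_le_pow_right₀ hl1 (by omega)) (by positivity)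
  have q2 : R ^ 2 * (101 * R * l) *
      (36 * N ^ 2 * ((C₂ + C₂ + C₃) * (N / l ^ (6 * b + 1 + e)))) ≤
        M * (2000 * (C₂ + C₂ + C₃) * E) := by
    have h1 : R ^ 3 * l / l ^ (6 * b + 1 + e) ≤ 1 / l ^ e := by
      rw [hR, div_le_div_iff₀ (by positivity) (by positivity), ← pow_mul, ← pow_succ, ← pow_add,
        one_mul]
      exact pow_le_pow_right₀ hl1 (by omega)
    calc R ^ 2 * (101 * R * l) *
          (36 * (N : ℝ) ^ 2 * ((C₂ + C₂ + C₃) * (N / l ^ (6 * b + 1 + e))))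
        = 3636 * (C₂ + C₂ + C₃) * (N : ℝ) ^ 3 * (R ^ 3 * l / l ^ (6 * b + 1 + e)) := by ring
      _ ≤ 12000 * (C₂ + C₂ + C₃) * (N : ℝ) ^ 3 * (1 / l ^ e) :=
          mul_le_mul (by gcongr; norm_num) h1 (by positivity) (by positivity)
      _ = _ := by rw [hM', hE]; ring
  have q3 : 2 * pairConst * (30 * N ^ 3 * l / R) ≤ M * (20 * pairConst * E) := by
    have h1 : l / R ≤ 1 / l ^ e := by
      rw [hR, div_le_div_iff₀ (by positivity) (by positivity), ← pow_succ', one_mul]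
      exact pow_le_pow_right₀ hl1 (by omega)
    calc 2 * pairConst * (30 * (N : ℝ) ^ 3 * l / R) =
          pairConst * (60 * (N : ℝ) ^ 3) * (l / R) := by ring
      _ ≤ pairConst * (120 * (N : ℝ) ^ 3) * (1 / l ^ e) :=
          mul_le_mul (by gcongr; norm_num) h1 (by positivity) (by positivity)
      _ = _ := by rw [hM', hE]; ring
  have hmain : |progWeight (Λ ·) (Λ ·) (Λ ·) N - J * S| ≤
      (6 * C₁ + 2000 * (C₂ + C₂ + C₃) + 20 * pairConst) * E := by
    refine le_of_mul_le_mul_left ?_ hM0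
    rw [← Real.norm_eq_abs, ← Complex.norm_real, ← Complex.norm_natCast M, ← norm_mul,
      Complex.ofReal_sub, mul_sub, Complex.ofReal_mul, ← mul_assoc, ← hcval, ← htotal, hident,
      Complex.norm_natCast]
    refine (norm_sub_le _ _).trans ((add_le_add
      ((norm_add_le _ _).trans (add_le_add p1 p3)) p5).trans
      ((add_le_add (add_le_add q1 q2) q3).trans (le_of_eq ?_)))
    ring
  have hst := AlmostGoldbach.abs_pairSeries_sub_le (n := 2) two_ne_zero P
  have hbd := AlmostGoldbach.abs_pairSeries_le (n := 2) two_ne_zero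
  rw [Nat.prime_two.divisors, card_pair (by norm_num), Nat.cast_ofNat] at hst hbd
  rw [← hS] at hst
  obtain ⟨t, ht⟩ : ∃ t : ℝ, t = ((P + 1 : ℕ) : ℝ) ^ (-(1 / 4) : ℝ) := ⟨_, rfl⟩
  rw [← ht] at hst
  have hte : t ≤ 1 / l ^ e := by
    have h1 : l ^ (4 * e) ≤ ((P + 1 : ℕ) : ℝ) := by
      refine le_trans ((pow_le_pow_right₀ hl1 (show 4 * e ≤ 2 * b by omega)).trans hR.ge) ?_
      push_cast
      exact (hP ▸ Nat.lt_floor_add_one R).le
    rw [ht]
    refine (Real.rpow_le_rpow_of_nonpos (by positivity) h1 (by norm_num)).trans (le_of_eq ?_)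
    rw [one_div (l ^ e), ← Real.rpow_natCast, ← Real.rpow_mul hl0.le, ← Real.rpow_natCast,
      ← Real.rpow_neg hl0.le]
    push_cast
    ring_nf
  have hJ2 := abs_progWeight_one_sub_le N
  rw [← hJ] at hJ2
  have hJ3 : |J| ≤ 2 * (N : ℝ) ^ 2 := by
    have h := abs_le.1 hJ2
    have : (N : ℝ) ≤ (N : ℝ) ^ 2 := le_self_pow₀ hN1 two_ne_zero
    exact abs_le.2 ⟨by linarith, by linarith⟩
  have hNl : (N : ℝ) ≤ K' * E := by
    have hNe : l ^ e ≤ K' * √(N : ℝ) := hl ▸ hpow' N hN1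
    rw [hE, mul_div_assoc', le_div_iff₀ (by positivity)]
    calc (N : ℝ) * l ^ e ≤ N * (K' * √(N : ℝ)) :=
          mul_le_mul_of_nonneg_left hNe (Nat.cast_nonneg N)
      _ = K' * ((N : ℝ) * √(N : ℝ)) := by ring
      _ ≤ K' * (N : ℝ) ^ 2 := by
          refine mul_le_mul_of_nonneg_left ?_ hK'.le
          rw [sq]
          refine mul_le_mul_of_nonneg_left ?_ (Nat.cast_nonneg N)
          rw [Real.sqrt_le_left (Nat.cast_nonneg N)]
          exact le_self_pow₀ hN1 two_ne_zero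
  have h1 : |J * (S - pairSeries 2)| ≤ 4 * pairConst * E := by
    rw [abs_mul, abs_sub_comm S, hE]
    calc |J| * |pairSeries 2 - S| ≤ 2 * (N : ℝ) ^ 2 * (pairConst * 2 * (1 / l ^ e)) :=
          mul_le_mul hJ3 (hst.trans (mul_le_mul_of_nonneg_left hte (by positivity)))
            (abs_nonneg _) (by positivity)
      _ = _ := by ring
  have h2 : |pairSeries 2 * (J - (N : ℝ) ^ 2 / 2)| ≤ 2 * pairConst * K' * E := by
    rw [abs_mul]
    calc |pairSeries 2| * |J - (N : ℝ) ^ 2 / 2| ≤ pairConst * 2 * (K' * E) :=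
          mul_le_mul hbd (hJ2.trans hNl) (abs_nonneg _) (by positivity)
      _ = _ := by ring
  rw [show progWeight (Λ ·) (Λ ·) (Λ ·) N - pairSeries 2 * ((N : ℝ) ^ 2 / 2) =
    (progWeight (Λ ·) (Λ ·) (Λ ·) N - J * S) + J * (S - pairSeries 2) +
      pairSeries 2 * (J - (N : ℝ) ^ 2 / 2) by ring]
  refine (abs_add_three _ _ _).trans ((add_le_add (add_le_add hmain h1) h2).trans ?_)
  have : 0 ≤ pairConst * K' * E := by positivity
  linarith

end FA.PrimeProgressionCount
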