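import Fermat.Agent.PrimeLinearEquation.Arcs

/-!
# Three-term progressions on the grid

The orthogonality for `i + k = 2 j`, the number of solutions, the sum of the coefficients of the
arcs (the singular series of `2`) and its product.
-/

set_option autoImplicit false

noncomputable section

namespace FA.PrimeProgressionCount

open Finset Complex Filter ArithmeticFunction
open FA.ThreePrimes (eAdd trigSum moebiusR ramanujan)
open FA.AlmostGoldbach (pairTerm pairSeries)
open FA.PrimeLinearEquation (arcCoeff gcdWeight)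
open scoped Topology ComplexConjugate

/-- Three weights on the solutions of `i + k = 2 j` in `[1, N]`. -/
def progWeight (f g u : ℕ → ℝ) (N : ℕ) : ℝ :=
  ∑ i ∈ Icc 1 N, ∑ j ∈ Icc 1 N, ∑ k ∈ Icc 1 N, if i + k = 2 * j then f i * g j * u k else 0

/-- **The grid for the progressions.** -/
theorem sum_prog_grid (f g u : ℕ → ℝ) {N M : ℕ} (hM : 2 * N < M) (θ : ℝ) :
    ∑ h ∈ range M, trigSum (fun n => (f n : ℂ)) N ((h : ℝ) / M + θ) *
        trigSum (fun n => (u n : ℂ)) N ((h : ℝ) / M + θ) *
        conj (trigSum (fun n => (g n : ℂ)) N (2 * ((h : ℝ) / M + θ))) =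
      M * ((progWeight f g u N : ℝ) : ℂ) := by
  have e : ∀ x : ℝ, trigSum (fun n => (f n : ℂ)) N x * trigSum (fun n => (u n : ℂ)) N x *
      conj (trigSum (fun n => (g n : ℂ)) N (2 * x)) = ∑ i ∈ Icc 1 N, ∑ j ∈ Icc 1 N,
        ∑ k ∈ Icc 1 N, ((f i * g j * u k : ℝ) : ℂ) *
          eAdd ((((i : ℤ) + k - 2 * j : ℤ) : ℝ) * x) := by
    intro x
    rw [trigSum, trigSum, trigSum, map_sum, sum_mul_sum, sum_mul]
    simp only [sum_mul, mul_sum, map_mul, Complex.conj_ofReal, ThreePrimes.conj_eAdd]
    refine sum_congr rfl fun i _ => sum_congr rfl fun j _ => sum_congr rfl fun k _ => ?_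
    push_cast
    rw [show ((i : ℝ) + k - 2 * j) * x = i * x + k * x + -(j * (2 * x)) by ring,
      ThreePrimes.eAdd_add, ThreePrimes.eAdd_add]
    ring
  simp only [e]
  rw [sum_comm, progWeight, Complex.ofReal_sum, mul_sum]
  refine sum_congr rfl fun i hi => ?_
  rw [sum_comm, Complex.ofReal_sum, mul_sum]
  refine sum_congr rfl fun j hj => ?_
  rw [sum_comm, Complex.ofReal_sum, mul_sum]
  refine sum_congr rfl fun k hk => ?_
  rw [mem_Icc] at hi hj hk
  simp only [mul_add, ThreePrimes.eAdd_add, ← mul_assoc]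
  rw [← sum_mul, ← mul_sum]
  simp only [← mul_div_assoc]
  rw [ThreePrimes.sum_eAdd_grid (by omega)]
  by_cases h : i + k = 2 * j
  · rw [if_pos h, show ((i : ℤ) + k - 2 * j) = 0 by omega, if_pos (dvd_zero _)]
    simp
    ring
  · rw [if_neg h, if_neg]
    · simp
    · intro hd
      have := Int.le_of_dvd (abs_pos.2 (show ((i : ℤ) + k - 2 * j) ≠ 0 by omega))
        ((dvd_abs _ _).2 hd)
      have : |((i : ℤ) + k - 2 * j)| < M := abs_lt.2 ⟨by omega, by omega⟩
      omega

theorem two_mul_card_parity (N : ℕ) {r : ℕ} (hr : r < 2) :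
    ((Icc 1 N).filter fun k => k % 2 = r).card = (N + r) / 2 := by
  induction N with
  | zero => simp; omega
  | succ n ih =>
    rw [show Icc 1 (n + 1) = insert (n + 1) (Icc 1 n) by ext; simp; omega, filter_insert]
    split_ifs with h
    · rw [card_insert_of_notMem (by simp), ih]
      omega
    · rw [ih]
      omega

/-- **There are `N² / 2 + O (N)` progressions in `[1, N]`.** -/
theorem abs_progWeight_one_sub_le (N : ℕ) :
    |progWeight (fun _ => 1) (fun _ => 1) (fun _ => 1) N - (N : ℝ) ^ 2 / 2| ≤ (N : ℝ) := by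
  have h1 : ∀ i ∈ Icc 1 N, ∀ k ∈ Icc 1 N,
      (∑ j ∈ Icc 1 N, if i + k = 2 * j then (1 : ℝ) * 1 * 1 else 0) =
        if k % 2 = i % 2 then 1 else 0 := by
    intro i hi k hk
    rw [mem_Icc] at hi hk
    split_ifs with h
    · rw [sum_eq_single ((i + k) / 2)]
      · rw [if_pos (by omega), one_mul, one_mul]
      · intro j _ hj
        rw [if_neg (by omega)]
      · intro h'
        exact absurd (mem_Icc.2 ⟨by omega, by omega⟩) h'
    · exact sum_eq_zero fun j _ => if_neg (by omega)
  have h2 : progWeight (fun _ => 1) (fun _ => 1) (fun _ => 1) N =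
      ∑ i ∈ Icc 1 N, (((N + i % 2) / 2 : ℕ) : ℝ) := by
    refine sum_congr rfl fun i hi => ?_
    rw [sum_comm, sum_congr rfl (h1 i hi), sum_boole,
      two_mul_card_parity N (Nat.mod_lt _ two_pos)]
  rw [h2, show (N : ℝ) ^ 2 / 2 = ∑ _i ∈ Icc 1 N, (N : ℝ) / 2 by
    rw [sum_const, Nat.card_Icc, Nat.add_sub_cancel, nsmul_eq_mul]; ring, ← sum_sub_distrib]
  refine (abs_sum_le_sum_abs _ _).trans ((sum_le_card_nsmul _ _ 1 fun i _ => ?_).trans
    (le_of_eq (by simp)))
  have h3 : N ≤ 2 * ((N + i % 2) / 2) + 1 ∧ 2 * ((N + i % 2) / 2) ≤ N + 1 := by omega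
  have h4 : (N : ℝ) ≤ 2 * (((N + i % 2) / 2 : ℕ) : ℝ) + 1 := by exact_mod_cast h3.1
  have h5 : 2 * (((N + i % 2) / 2 : ℕ) : ℝ) ≤ (N : ℝ) + 1 := by exact_mod_cast h3.2
  rw [abs_le]
  constructor <;> linarith

theorem ramanujan_two {q : ℕ} (h : Squarefree q) :
    ramanujan 2 q = moebiusR q * gcdWeight 2 q := by
  have hc : (ramanujan 2).IsMultiplicative :=
    ThreePrimes.moebiusR_isMultiplicative.mul (ThreePrimes.divPart_isMultiplicative 2)
  induction q using Nat.recOnPosPrimePosCoprime with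
  | prime_pow p k hp hk =>
    obtain rfl : k = 1 := by
      by_contra hne
      exact hp.not_isUnit (h p ((sq p).symm ▸ pow_dvd_pow p (show 2 ≤ k by omega)))
    rw [pow_one, ThreePrimes.ramanujan_prime 2 hp, gcdWeight, moebiusR, intCoe_apply,
      moebius_apply_prime hp, intCoe_apply]
    by_cases h2 : p = 2
    · subst h2
      rw [Nat.gcd_self, moebius_apply_prime Nat.prime_two, Nat.totient_two, if_pos dvd_rfl]
      norm_num
    · rw [if_neg fun hd => h2 ((Nat.prime_dvd_prime_iff_eq hp Nat.prime_two).1 hd),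
        Nat.Coprime.gcd_eq_one ((Nat.coprime_primes hp Nat.prime_two).2 h2)]
      simp
  | zero => exact absurd h not_squarefree_zero
  | one => simp [hc.1, ThreePrimes.moebiusR_isMultiplicative.1, gcdWeight]
  | coprime a b _ _ hab iha ihb =>
    rw [hc.2 hab, ThreePrimes.moebiusR_isMultiplicative.2 hab,
      PrimeLinearEquation.gcdWeight_mul 2 hab, iha (h.squarefree_of_dvd (dvd_mul_right a b)),
      ihb (h.squarefree_of_dvd (dvd_mul_left b a))]
    ring

/-- **The coefficients of one denominator** add up to the term of `2`. -/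
theorem totient_mul_coeff {q : ℕ} (hq : 0 < q) :
    (q.totient : ℝ) * ((moebiusR q / q.totient) ^ 2 * arcCoeff 2 q) = pairTerm 2 q := by
  rw [AlmostGoldbach.pairTerm_apply]
  by_cases h : Squarefree q
  · rw [ramanujan_two h, PrimeLinearEquation.arcCoeff_of_squarefree 2 h]
    have : (q.totient : ℝ) ≠ 0 := Nat.cast_ne_zero.2 (Nat.totient_pos.2 hq).ne'
    field_simp
  · rw [PrimeLinearEquation.moebiusR_of_not_squarefree h]
    simp

/-- The series is twice the twin prime constant. -/
theorem tendsto_pairSeries_two : Tendsto (fun k : ℕ => ∏ p ∈ k.primesBelow,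
    if p = 2 then (2 : ℝ) else 1 - 1 / ((p : ℝ) - 1) ^ 2) atTop (𝓝 (pairSeries 2)) := by
  refine ((AlmostGoldbach.pairTerm_isMultiplicative 2).eulerProduct
    (AlmostGoldbach.summable_pair two_ne_zero)).congr fun k => prod_congr rfl fun p hp => ?_
  have hp' := (Nat.mem_primesBelow.1 hp).2
  rw [tsum_eq_sum (s := range 2) fun e he => ?_]
  · rw [sum_range_succ, sum_range_one, pow_zero, pow_one,
      (AlmostGoldbach.pairTerm_isMultiplicative 2).1, AlmostGoldbach.pairTerm_apply,
      ThreePrimes.ramanujan_prime 2 hp', moebiusR, intCoe_apply, moebius_apply_prime hp',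
      Nat.totient_prime hp', Nat.cast_sub hp'.one_le, Nat.cast_one]
    split_ifs with hd h2 h2
    · subst h2
      norm_num
    · exact absurd ((Nat.prime_dvd_prime_iff_eq hp' Nat.prime_two).1 hd) h2
    · exact absurd (h2 ▸ dvd_rfl) hd
    · push_cast
      ring
  · rw [mem_range] at he
    rw [AlmostGoldbach.pairTerm_apply, moebiusR, intCoe_apply,
      moebius_apply_prime_pow hp' (by omega), if_neg (show e ≠ 1 by omega)]
    simp

end FA.PrimeProgressionCount
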