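import Fermat.Agent.PrimeProgressionCount.Circle
import Fermat.Agent.ThreePrimes.Main

/-!
# The number of three-term progressions of primes

The formula for all `N ≥ 2`, the removal of the prime powers, and the count
`#{p < q < r ≤ N : p + r = 2 q} ∼ 𝔖 N² / (4 (log N) ^ 3)`.
-/

set_option autoImplicit false

noncomputable section

namespace FA.PrimeProgressionCount

open Finset Filter ArithmeticFunction
open FA.ThreePrimes (powerPart)
open FA.AlmostGoldbach (pairSeries pairConst)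
open scoped Topology

theorem progWeight_swap (f g u : ℕ → ℝ) (N : ℕ) : progWeight f g u N = progWeight u g f N := by
  rw [progWeight, sum_comm, progWeight]
  conv_rhs => rw [sum_comm]
  refine sum_congr rfl fun j _ => ?_
  rw [sum_comm]
  refine sum_congr rfl fun k _ => sum_congr rfl fun i _ => ?_
  rw [add_comm i k]
  split_ifs
  · ring
  · rfl

theorem progWeight_nonneg {f g u : ℕ → ℝ} (hf : ∀ n, 0 ≤ f n) (hg : ∀ n, 0 ≤ g n)
    (hu : ∀ n, 0 ≤ u n) (N : ℕ) : 0 ≤ progWeight f g u N := by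
  refine sum_nonneg fun i _ => sum_nonneg fun j _ => sum_nonneg fun k _ => ?_
  split_ifs
  exacts [mul_nonneg (mul_nonneg (hf i) (hg j)) (hu k), le_rfl]

/-- Two of the three determine the third. -/
theorem progWeight_le {f g u : ℕ → ℝ} (hg : ∀ n, 0 ≤ g n) (hu : ∀ n, 0 ≤ u n) {N : ℕ} {B : ℝ}
    (hB0 : 0 ≤ B) (hB : ∀ n ∈ Icc 1 N, f n ≤ B) :
    progWeight f g u N ≤ B * ((∑ j ∈ Icc 1 N, g j) * ∑ k ∈ Icc 1 N, u k) := by
  rw [sum_mul_sum, mul_sum, progWeight, sum_comm]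
  refine sum_le_sum fun j _ => ?_
  rw [mul_sum, sum_comm]
  refine sum_le_sum fun k _ => ?_
  have hgu : 0 ≤ g j * u k := mul_nonneg (hg j) (hu k)
  rw [← sum_filter]
  refine (sum_le_card_nsmul _ _ (B * (g j * u k)) fun i hi => ?_).trans ?_
  · rw [mem_filter] at hi
    rw [mul_assoc]
    exact mul_le_mul_of_nonneg_right (hB i hi.1) hgu
  · rw [nsmul_eq_mul]
    refine mul_le_of_le_one_left (mul_nonneg hB0 hgu) ?_
    refine Nat.cast_le_one.2 (card_le_one.2 fun x hx y hy => ?_)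
    rw [mem_filter] at hx hy
    omega

/-- `log` on the primes. -/
def primeLog (n : ℕ) : ℝ := if n.Prime then Real.log n else 0

theorem primeLog_nonneg (n : ℕ) : 0 ≤ primeLog n := by
  rw [primeLog]
  split_ifs
  exacts [Real.log_natCast_nonneg n, le_rfl]

theorem primeLog_add_powerPart (n : ℕ) : primeLog n + powerPart n = Λ n := by
  rw [primeLog, powerPart]
  split_ifs with h
  · rw [add_zero, vonMangoldt_apply_prime h]
  · rw [zero_add]

theorem primeLog_le (n : ℕ) : primeLog n ≤ Λ n := by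
  linarith [primeLog_add_powerPart n, ThreePrimes.powerPart_nonneg n]

/-- **The asymptotic formula.** -/
theorem exists_prog_asymptotic (e : ℕ) : ∃ C : ℝ, 0 < C ∧ ∀ N : ℕ, 2 ≤ N →
    |progWeight (Λ ·) (Λ ·) (Λ ·) N - pairSeries 2 * ((N : ℝ) ^ 2 / 2)| ≤
      C * ((N : ℝ) ^ 2 / Real.log N ^ e) := by
  obtain ⟨C, N₀, hC, h⟩ := exists_prog_asymptotic_large e
  obtain ⟨L, hL⟩ : ∃ L : ℝ, L = (Real.log N₀ + 1) ^ e := ⟨_, rfl⟩
  have hL0 : 0 < L := hL ▸ pow_pos (by linarith [Real.log_natCast_nonneg N₀]) e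
  have hPC := AlmostGoldbach.pairConst_nonneg
  refine ⟨C + (216 * (N₀ + 1) + 2 * pairConst) * L, by positivity, fun N hN => ?_⟩
  obtain ⟨E, hE⟩ : ∃ E : ℝ, E = (N : ℝ) ^ 2 / Real.log N ^ e := ⟨_, rfl⟩
  rw [← hE]
  have hl : 0 < Real.log N := Real.log_pos (by exact_mod_cast hN)
  have hE0 : 0 ≤ E := by rw [hE]; positivity
  rcases le_or_gt N₀ N with hle | hlt
  · have h1 := h N hle
    rw [← hE] at h1
    have : 0 ≤ (216 * ((N₀ : ℝ) + 1) + 2 * pairConst) * L * E := by positivity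
    linarith
  · have hN0 : (N : ℝ) ≤ N₀ := Nat.cast_le.2 hlt.le
    have hΛ : ∀ n : ℕ, 0 ≤ Λ n := fun n => vonMangoldt_nonneg
    have hs : ∑ n ∈ Icc 1 N, Λ n ≤ 6 * N := ThreePrimes.sum_vonMangoldt_le N
    have h1 : progWeight (Λ ·) (Λ ·) (Λ ·) N ≤ 216 * ((N₀ : ℝ) + 1) * (N : ℝ) ^ 2 := by
      refine (progWeight_le hΛ hΛ (B := 6 * N) (by positivity) fun n hn =>
        (single_le_sum (fun i _ => hΛ i) hn).trans hs).trans ?_
      refine (mul_le_mul_of_nonneg_left (mul_le_mul hs hs (sum_nonneg fun i _ => hΛ i)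
        (by positivity)) (by positivity)).trans ?_
      have := mul_le_mul_of_nonneg_left (show (N : ℝ) ≤ N₀ + 1 by linarith)
        (show (0 : ℝ) ≤ 216 * (N : ℝ) ^ 2 by positivity)
      linarith
    have h2 : |pairSeries 2 * ((N : ℝ) ^ 2 / 2)| ≤ 2 * pairConst * (N : ℝ) ^ 2 := by
      have hbd := AlmostGoldbach.abs_pairSeries_le (n := 2) two_ne_zero
      rw [Nat.prime_two.divisors, card_pair (by norm_num), Nat.cast_ofNat] at hbd
      rw [abs_mul, abs_of_nonneg (show (0 : ℝ) ≤ (N : ℝ) ^ 2 / 2 by positivity)]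
      exact mul_le_mul (hbd.trans (le_of_eq (by ring))) (by linarith [sq_nonneg (N : ℝ)])
        (by positivity) (by positivity)
    have h3 : (N : ℝ) ^ 2 ≤ L * E := by
      rw [hE, mul_div_assoc', le_div_iff₀ (by positivity), mul_comm L]
      refine mul_le_mul_of_nonneg_left (hL ▸ pow_le_pow_left₀ hl.le ?_ e) (sq_nonneg _)
      linarith [Real.log_le_log (show (0 : ℝ) < N by positivity) hN0]
    refine (abs_sub _ _).trans ((add_le_add ((abs_of_nonneg
      (progWeight_nonneg hΛ hΛ hΛ N)).le.trans h1) h2).trans ?_)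
    have h4 := mul_le_mul_of_nonneg_left h3
      (show 0 ≤ 216 * ((N₀ : ℝ) + 1) + 2 * pairConst by positivity)
    have : 0 ≤ C * E := by positivity
    linarith

theorem exists_progWeight_powerPart_le (e : ℕ) : ∃ C : ℝ, 0 < C ∧ ∀ N : ℕ, 2 ≤ N →
    progWeight powerPart (Λ ·) (Λ ·) N + progWeight (Λ ·) powerPart (Λ ·) N +
      progWeight (Λ ·) (Λ ·) powerPart N ≤ C * ((N : ℝ) ^ 2 / Real.log N ^ e) := by
  obtain ⟨K, hK, hpow⟩ := ThreePrimes.exists_log_pow_le (e + 2)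
  refine ⟨36 * K, by positivity, fun N hN => ?_⟩
  have hN1 : (1 : ℝ) ≤ N := by exact_mod_cast (show 1 ≤ N by omega)
  obtain ⟨l, hl⟩ : ∃ l, l = Real.log N := ⟨_, rfl⟩
  have hl0 : 0 < l := hl ▸ Real.log_pos (by exact_mod_cast hN)
  rw [← hl]
  have hΛ : ∀ n : ℕ, 0 ≤ Λ n := fun n => vonMangoldt_nonneg
  have hmax : ∀ n ∈ Icc 1 N, Λ n ≤ l := fun n hn => by
    rw [mem_Icc] at hn
    rw [hl]
    exact vonMangoldt_le_log.trans
      (Real.log_le_log (Nat.cast_pos.2 hn.1) (Nat.cast_le.2 hn.2))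
  have hone : ∀ T : ℝ, T ≤ l * ((∑ i ∈ Icc 1 N, powerPart i) * (∑ j ∈ Icc 1 N, Λ j)) →
      T ≤ 12 * K * ((N : ℝ) ^ 2 / l ^ e) := by
    intro T hT
    refine hT.trans ?_
    calc l * ((∑ i ∈ Icc 1 N, powerPart i) * (∑ j ∈ Icc 1 N, Λ j))
        ≤ l * ((2 * √(N : ℝ) * l) * (6 * N)) :=
          mul_le_mul_of_nonneg_left (mul_le_mul (hl ▸ ThreePrimes.sum_powerPart_le (by omega))
            (ThreePrimes.sum_vonMangoldt_le N) (sum_nonneg fun j _ => hΛ j) (by positivity)) hl0.le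
      _ = 12 * N * √(N : ℝ) * (l ^ (e + 2) / l ^ e) := by
          rw [pow_add]
          field_simp
          ring
      _ ≤ 12 * N * √(N : ℝ) * (K * √(N : ℝ) / l ^ e) := mul_le_mul_of_nonneg_left
          (div_le_div_of_nonneg_right (hl ▸ hpow N hN1) (by positivity)) (by positivity)
      _ = 12 * K * ((N : ℝ) * (√(N : ℝ) * √(N : ℝ)) / l ^ e) := by ring
      _ = _ := by rw [Real.mul_self_sqrt (Nat.cast_nonneg N), sq]
  have t3 := hone _ ((progWeight_le hΛ ThreePrimes.powerPart_nonneg (N := N) hl0.le hmax).trans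
    (le_of_eq (by ring)))
  have t2 := hone _
    (progWeight_le (f := (Λ ·)) ThreePrimes.powerPart_nonneg hΛ (N := N) hl0.le hmax)
  have t1 : progWeight powerPart (Λ ·) (Λ ·) N ≤ 12 * K * ((N : ℝ) ^ 2 / l ^ e) := by
    rw [progWeight_swap]
    exact t3
  linarith

theorem progWeight_primeLog_le (N : ℕ) :
    progWeight primeLog primeLog primeLog N ≤ progWeight (Λ ·) (Λ ·) (Λ ·) N := by
  refine sum_le_sum fun i _ => sum_le_sum fun j _ => sum_le_sum fun k _ => ?_
  split_ifs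
  · exact mul_le_mul (mul_le_mul (primeLog_le i) (primeLog_le j) (primeLog_nonneg j)
      vonMangoldt_nonneg) (primeLog_le k) (primeLog_nonneg k)
      (mul_nonneg vonMangoldt_nonneg vonMangoldt_nonneg)
  · exact le_rfl

theorem progWeight_vonMangoldt_le (N : ℕ) :
    progWeight (Λ ·) (Λ ·) (Λ ·) N ≤ progWeight primeLog primeLog primeLog N +
      (progWeight powerPart (Λ ·) (Λ ·) N + progWeight (Λ ·) powerPart (Λ ·) N +
        progWeight (Λ ·) (Λ ·) powerPart N) := by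
  simp only [progWeight, ← sum_add_distrib]
  refine sum_le_sum fun i _ => sum_le_sum fun j _ => sum_le_sum fun k _ => ?_
  split_ifs
  · have hpi := ThreePrimes.powerPart_nonneg i
    have hpj := ThreePrimes.powerPart_nonneg j
    have hpk := ThreePrimes.powerPart_nonneg k
    have e1 : powerPart i * Λ j * Λ k ≤ powerPart i * Λ j * Λ k := le_rfl
    have e2 : primeLog i * powerPart j * Λ k ≤ Λ i * powerPart j * Λ k :=
      mul_le_mul_of_nonneg_right (mul_le_mul_of_nonneg_right (primeLog_le i) hpj) vonMangoldt_nonneg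
    have e3 : primeLog i * primeLog j * powerPart k ≤ Λ i * Λ j * powerPart k :=
      mul_le_mul_of_nonneg_right (mul_le_mul (primeLog_le i) (primeLog_le j) (primeLog_nonneg j)
        vonMangoldt_nonneg) hpk
    have e0 : Λ i * Λ j * Λ k = primeLog i * primeLog j * primeLog k +
        (powerPart i * Λ j * Λ k + primeLog i * powerPart j * Λ k +
          primeLog i * primeLog j * powerPart k) := by
      simp only [← primeLog_add_powerPart]
      ring
    linarith
  · norm_num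

/-- **The formula with `log p` over the primes.** -/
theorem exists_log_asymptotic (e : ℕ) : ∃ C : ℝ, 0 < C ∧ ∀ N : ℕ, 2 ≤ N →
    |progWeight primeLog primeLog primeLog N - pairSeries 2 * ((N : ℝ) ^ 2 / 2)| ≤
      C * ((N : ℝ) ^ 2 / Real.log N ^ e) := by
  obtain ⟨C, hC, h⟩ := exists_prog_asymptotic e
  obtain ⟨C', hC', h'⟩ := exists_progWeight_powerPart_le e
  refine ⟨C + C', by positivity, fun N hN => ?_⟩
  obtain ⟨u, v⟩ := abs_le.1 (h N hN)
  have := h' N hN
  have := progWeight_primeLog_le N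
  have := progWeight_vonMangoldt_le N
  have : 0 ≤ C' * ((N : ℝ) ^ 2 / Real.log N ^ e) := by
    have := Real.log_natCast_nonneg N
    positivity
  exact abs_le.2 ⟨by linarith, by linarith⟩

/-- The triples of primes `p + r = 2 q` up to `N`. -/
def progTriples (N : ℕ) : Finset (ℕ × ℕ × ℕ) :=
  (Icc 1 N ×ˢ (Icc 1 N ×ˢ Icc 1 N)).filter fun t =>
    t.1 + t.2.2 = 2 * t.2.1 ∧ t.1.Prime ∧ t.2.1.Prime ∧ t.2.2.Prime

theorem progWeight_primeLog_eq (N : ℕ) : progWeight primeLog primeLog primeLog N =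
    ∑ t ∈ progTriples N, Real.log t.1 * Real.log t.2.1 * Real.log t.2.2 := by
  rw [progTriples, sum_filter]
  simp only [sum_product, progWeight]
  refine sum_congr rfl fun i _ => sum_congr rfl fun j _ => sum_congr rfl fun k _ => ?_
  by_cases hs : i + k = 2 * j
  · rw [if_pos hs]
    by_cases hc : i.Prime ∧ j.Prime ∧ k.Prime
    · rw [if_pos ⟨hs, hc⟩, primeLog, if_pos hc.1, primeLog, if_pos hc.2.1, primeLog,
        if_pos hc.2.2]
    · rw [if_neg fun h => hc h.2]
      simp only [primeLog]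
      split_ifs with hi hj hk <;> simp_all
  · rw [if_neg hs, if_neg fun h => hs h.1]

theorem sum_log_progTriples_le (N : ℕ) :
    progWeight primeLog primeLog primeLog N ≤ (progTriples N).card * Real.log N ^ 3 := by
  rw [progWeight_primeLog_eq]
  refine (sum_le_card_nsmul _ _ (Real.log N ^ 3) fun t ht => ?_).trans
    (le_of_eq (nsmul_eq_mul _ _))
  simp only [progTriples, mem_filter, mem_product, mem_Icc] at ht
  obtain ⟨⟨⟨h1, h1'⟩, ⟨h2, h2'⟩, h3, h3'⟩, -⟩ := ht
  rw [pow_three']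
  exact mul_le_mul (mul_le_mul (Real.log_le_log (Nat.cast_pos.2 h1) (Nat.cast_le.2 h1'))
    (Real.log_le_log (Nat.cast_pos.2 h2) (Nat.cast_le.2 h2')) (Real.log_natCast_nonneg _)
    (Real.log_natCast_nonneg _))
    (Real.log_le_log (Nat.cast_pos.2 h3) (Nat.cast_le.2 h3')) (Real.log_natCast_nonneg _)
    (mul_nonneg (Real.log_natCast_nonneg _) (Real.log_natCast_nonneg _))

/-- Few triples use a prime up to `X`. -/
theorem card_progTriples_small_le (N : ℕ) {X : ℝ} (hX : 0 ≤ X) :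
    (((progTriples N).filter fun t =>
      (t.1 : ℝ) ≤ X ∨ (t.2.1 : ℝ) ≤ X ∨ (t.2.2 : ℝ) ≤ X).card : ℝ) ≤ 3 * (X * N) := by
  obtain ⟨S, hS⟩ : ∃ S, S = progTriples N := ⟨_, rfl⟩
  rw [← hS]
  have hmem : ∀ t ∈ S, t.1 + t.2.2 = 2 * t.2.1 ∧ t.1 ∈ Icc 1 N ∧ t.2.1 ∈ Icc 1 N ∧
      t.2.2 ∈ Icc 1 N := by
    intro t ht
    simp only [hS, progTriples, mem_filter, mem_product] at ht
    exact ⟨ht.2.1, ht.1.1, ht.1.2.1, ht.1.2.2⟩
  have hbox : ∀ f : ℕ × ℕ × ℕ → ℕ × ℕ, (∀ t ∈ S, ∀ t' ∈ S, f t = f t' → t = t') →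
      (∀ t ∈ S, (f t).1 ∈ Icc 1 N ∧ (f t).2 ∈ Icc 1 N) →
      ((S.filter fun t => ((f t).1 : ℝ) ≤ X).card : ℝ) ≤ X * N := by
    intro f hinj hf
    have h1 : (S.filter fun t => ((f t).1 : ℝ) ≤ X).card ≤ (Icc 1 ⌊X⌋₊ ×ˢ Icc 1 N).card := by
      refine card_le_card_of_injOn f (fun t ht => ?_) fun t ht t' ht' he => ?_
      · rw [mem_coe, mem_filter] at ht
        rw [mem_coe, mem_product, mem_Icc]
        exact ⟨⟨(mem_Icc.1 (hf t ht.1).1).1, Nat.le_floor ht.2⟩, (hf t ht.1).2⟩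
      · rw [mem_coe, mem_filter] at ht ht'
        exact hinj t ht.1 t' ht'.1 he
    refine (Nat.cast_le.2 h1).trans ?_
    rw [card_product, Nat.card_Icc, Nat.card_Icc, Nat.add_sub_cancel, Nat.add_sub_cancel,
      Nat.cast_mul]
    exact mul_le_mul_of_nonneg_right (Nat.floor_le hX) (Nat.cast_nonneg N)
  have b1 := hbox (fun t => (t.1, t.2.1)) (fun t ht t' ht' he => by
    have := (hmem t ht).1
    have := (hmem t' ht').1
    simp only [Prod.mk.injEq] at he
    ext <;> omega) fun t ht => ⟨(hmem t ht).2.1, (hmem t ht).2.2.1⟩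
  have b2 := hbox (fun t => (t.2.1, t.2.2)) (fun t ht t' ht' he => by
    have := (hmem t ht).1
    have := (hmem t' ht').1
    simp only [Prod.mk.injEq] at he
    ext <;> omega) fun t ht => ⟨(hmem t ht).2.2.1, (hmem t ht).2.2.2⟩
  have b3 := hbox (fun t => (t.2.2, t.1)) (fun t ht t' ht' he => by
    have := (hmem t ht).1
    have := (hmem t' ht').1
    simp only [Prod.mk.injEq] at he
    ext <;> omega) fun t ht => ⟨(hmem t ht).2.2.2, (hmem t ht).2.1⟩
  have h2 : ((S.filter fun t => (t.1 : ℝ) ≤ X ∨ (t.2.1 : ℝ) ≤ X ∨ (t.2.2 : ℝ) ≤ X).card : ℝ) ≤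
      (S.filter fun t => (t.1 : ℝ) ≤ X).card + ((S.filter fun t => (t.2.1 : ℝ) ≤ X).card +
        (S.filter fun t => (t.2.2 : ℝ) ≤ X).card) := by
    rw [filter_or, filter_or]
    exact_mod_cast (card_union_le _ _).trans (Nat.add_le_add_left (card_union_le _ _) _)
  linarith

/-- The progressions `p < q < r ≤ N` of primes. -/
def progCount (N : ℕ) : ℕ :=
  ((Icc 1 N ×ˢ (Icc 1 N ×ˢ Icc 1 N)).filter fun t => t.1.Prime ∧ t.2.1.Prime ∧ t.2.2.Prime ∧
    t.1 < t.2.1 ∧ t.2.1 < t.2.2 ∧ t.1 + t.2.2 = 2 * t.2.1).card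

/-- The triples are the progressions, their reversals and the diagonal. -/
theorem card_progTriples_bounds (N : ℕ) :
    2 * progCount N ≤ (progTriples N).card ∧ (progTriples N).card ≤ 2 * progCount N + N := by
  obtain ⟨A, hA⟩ : ∃ A, A = (progTriples N).filter fun t => t.1 < t.2.2 := ⟨_, rfl⟩
  obtain ⟨B, hB⟩ : ∃ B, B = (progTriples N).filter fun t => t.2.2 < t.1 := ⟨_, rfl⟩
  obtain ⟨D, hD⟩ : ∃ D, D = (progTriples N).filter fun t => t.1 = t.2.2 := ⟨_, rfl⟩
  have hAB : B.card = A.card := by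
    refine card_nbij' (fun t => (t.2.2, t.2.1, t.1)) (fun t => (t.2.2, t.2.1, t.1))
      (fun t ht => ?_) (fun t ht => ?_) (fun t _ => rfl) fun t _ => rfl <;>
    · simp only [hA, hB, progTriples, coe_filter, Set.mem_ofPred_eq, mem_filter, mem_product,
        mem_Icc] at ht ⊢
      obtain ⟨⟨⟨a, b, c⟩, hs, hp, hq, hr⟩, hlt⟩ := ht
      exact ⟨⟨⟨c, b, a⟩, by omega, hr, hq, hp⟩, hlt⟩
  have hAc : A.card = progCount N := by
    rw [progCount, hA, progTriples, filter_filter]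
    congr 1
    refine filter_congr fun t _ => ⟨fun h => ?_, fun h => ?_⟩
    · obtain ⟨⟨h1, h2, h3, h4⟩, h5⟩ := h
      exact ⟨h2, h3, h4, by omega, by omega, h1⟩
    · obtain ⟨h1, h2, h3, h4, h5, h6⟩ := h
      exact ⟨⟨h6, h1, h2, h3⟩, by omega⟩
  have hDc : D.card ≤ N := by
    refine (card_le_card_of_injOn (t := Icc 1 N) (fun t => t.1) (fun t ht => ?_) ?_).trans
      (le_of_eq (by rw [Nat.card_Icc, Nat.add_sub_cancel]))
    · simp only [hD, progTriples, coe_filter, Set.mem_ofPred_eq, mem_filter, mem_product] at ht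
      exact mem_coe.2 ht.1.1.1
    · intro t ht t' ht' he
      simp only [hD, progTriples, coe_filter, Set.mem_ofPred_eq, mem_filter] at ht ht' he
      ext <;> omega
  have hsum : (progTriples N).card = A.card + B.card + D.card := by
    rw [hA, hB, hD, card_filter, card_filter, card_filter, ← sum_add_distrib, ← sum_add_distrib,
      card_eq_sum_ones]
    refine sum_congr rfl fun t _ => ?_
    split_ifs <;> omega
  omega

/-- **The number of triples.** -/
theorem exists_triples_asymptotic {ε : ℝ} (hε : 0 < ε) : ∃ N₀ : ℕ, ∀ N : ℕ, N₀ ≤ N →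
    |((progTriples N).card : ℝ) * Real.log N ^ 3 / (N : ℝ) ^ 2 - pairSeries 2 / 2| ≤ ε := by
  obtain ⟨C, hC, h⟩ := exists_log_asymptotic 1
  have hPC := AlmostGoldbach.pairConst_nonneg
  obtain ⟨Cs, hCs⟩ : ∃ Cs : ℝ, Cs = |pairSeries 2| + 1 := ⟨_, rfl⟩
  have hCs0 : 0 < Cs := by linarith [abs_nonneg (pairSeries 2)]
  obtain ⟨η, hη⟩ : ∃ η : ℝ, η = min (1 / 6) (ε / (12 * (C + Cs + 3))) := ⟨_, rfl⟩
  have hη0 : 0 < η := hη ▸ lt_min (by norm_num) (by positivity)
  have hη6 : η ≤ 1 / 6 := hη ▸ min_le_left _ _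
  have hηε : η * (12 * (C + Cs + 3)) ≤ ε := by
    rw [← le_div_iff₀ (by positivity), hη]
    exact min_le_right _ _
  refine ⟨max 2 ⌈Real.exp ((2 * C + 6) / ε + 64 / η ^ 2 + 1)⌉₊, fun N hN => ?_⟩
  have hN2 : 2 ≤ N := le_trans (le_max_left _ _) hN
  have hN0 : (0 : ℝ) < N := Nat.cast_pos.2 (by omega)
  obtain ⟨l, hl⟩ : ∃ l, l = Real.log N := ⟨_, rfl⟩
  have hlb : (2 * C + 6) / ε + 64 / η ^ 2 + 1 ≤ l := by
    rw [hl, Real.le_log_iff_exp_le hN0]
    exact (Nat.le_ceil _).trans (Nat.cast_le.2 (le_trans (le_max_right _ _) hN))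
  have hu : 0 ≤ (2 * C + 6) / ε := by positivity
  have hv : 0 ≤ 64 / η ^ 2 := by positivity
  have hl1 : 1 ≤ l := by linarith
  have hl0 : 0 < l := by linarith
  have hlε : (2 * C + 6) / l ≤ ε := by
    have h9 : (2 * C + 6) / ε ≤ l := by linarith
    rw [div_le_iff₀ hl0]
    linarith [(div_le_iff₀ hε).1 h9]
  obtain ⟨S, hS⟩ : ∃ S, S = progTriples N := ⟨_, rfl⟩
  obtain ⟨T, hT⟩ : ∃ T, T = progWeight primeLog primeLog primeLog N := ⟨_, rfl⟩
  have hup : T ≤ S.card * l ^ 3 := by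
    rw [hT, hS, hl]
    exact sum_log_progTriples_le N
  obtain ⟨X, hX⟩ : ∃ X : ℝ, X = (N : ℝ) / l ^ 4 := ⟨_, rfl⟩
  have hX0 : 0 < X := hX ▸ div_pos hN0 (by positivity)
  have hlogX : (1 - η) * l ≤ Real.log X := by
    rw [hX, Real.log_div hN0.ne' (by positivity), Real.log_pow, ← hl]
    have h1 : Real.log l ≤ 2 * √l := by
      have := Real.log_le_sub_one_of_pos (Real.sqrt_pos.2 hl0)
      rw [Real.log_sqrt hl0.le] at this
      linarith
    have h2 : 8 ≤ η * √l := by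
      have h3 : (8 / η) ^ 2 ≤ l := by
        rw [div_pow]
        norm_num
        linarith
      have h4 := Real.le_sqrt_of_sq_le h3
      rw [div_le_iff₀ hη0] at h4
      linarith
    have := mul_le_mul_of_nonneg_right h2 (Real.sqrt_nonneg l)
    rw [mul_assoc, Real.mul_self_sqrt hl0.le] at this
    push_cast
    linarith
  have hlX : 0 ≤ (1 - η) * l := mul_nonneg (by linarith) hl0.le
  have hlarge : ((1 - η) * l) ^ 3 * ((S.card : ℝ) - 3 * (X * N)) ≤ T := by
    refine le_trans (mul_le_mul_of_nonneg_left (a := ((1 - η) * l) ^ 3)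
      (show (S.card : ℝ) - 3 * (X * N) ≤ (S.filter fun t =>
        ¬ ((t.1 : ℝ) ≤ X ∨ (t.2.1 : ℝ) ≤ X ∨ (t.2.2 : ℝ) ≤ X)).card by
        rw [sub_le_iff_le_add]
        refine le_trans (le_of_eq ?_)
          (add_le_add_right (card_progTriples_small_le N hX0.le) _)
        rw [← hS, ← Nat.cast_add, add_comm, card_filter_add_card_filter_not])
      (pow_nonneg hlX 3)) ?_
    rw [mul_comm, ← nsmul_eq_mul, hT, progWeight_primeLog_eq, ← hS]
    refine (card_nsmul_le_sum _ _ _ fun t ht => ?_).trans (sum_le_sum_of_subset_of_nonneg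
      (filter_subset _ _) fun t _ _ => mul_nonneg (mul_nonneg (Real.log_natCast_nonneg _)
        (Real.log_natCast_nonneg _)) (Real.log_natCast_nonneg _))
    rw [mem_filter, not_or, not_or, not_le, not_le, not_le] at ht
    have hg : ∀ x : ℕ, X < (x : ℝ) → (1 - η) * l ≤ Real.log x := fun x hx =>
      hlogX.trans (Real.log_le_log hX0 hx.le)
    rw [pow_three']
    exact mul_le_mul (mul_le_mul (hg _ ht.2.1) (hg _ ht.2.2.1) hlX (Real.log_natCast_nonneg _))
      (hg _ ht.2.2.2) hlX (mul_nonneg (Real.log_natCast_nonneg _) (Real.log_natCast_nonneg _))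
  obtain ⟨y, hy⟩ : ∃ y : ℝ, y = (S.card : ℝ) * l ^ 3 / (N : ℝ) ^ 2 := ⟨_, rfl⟩
  rw [← hS, ← hl, ← hy]
  obtain ⟨w, hw⟩ : ∃ w : ℝ, w = T / (N : ℝ) ^ 2 := ⟨_, rfl⟩
  have hwy : w ≤ y := by
    rw [hw, hy]
    exact div_le_div_of_nonneg_right hup (sq_nonneg _)
  have hwmain : |w - pairSeries 2 / 2| ≤ C / l := by
    have h1 := h N hN2
    rw [← hT, ← hl, pow_one] at h1
    have h2 : w - pairSeries 2 / 2 = (T - pairSeries 2 * ((N : ℝ) ^ 2 / 2)) / (N : ℝ) ^ 2 := by
      rw [hw]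
      field_simp
    rw [h2, abs_div, abs_of_nonneg (sq_nonneg (N : ℝ)), div_le_iff₀ (by positivity)]
    exact h1.trans (le_of_eq (by ring))
  have hw2 : (1 - η) ^ 3 * (y - 3 / l) ≤ w := by
    rw [hw, le_div_iff₀ (by positivity)]
    refine le_trans (le_of_eq ?_) hlarge
    rw [hy, hX]
    field_simp
  have hwB : |w| ≤ C + Cs := by
    have h1 : C / l ≤ C := div_le_self hC.le hl1
    have h3 := abs_le.1 hwmain
    have h4 := abs_le.1 (le_refl |pairSeries 2|)
    exact abs_le.2 ⟨by linarith, by linarith⟩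
  have hcube : 1 - 3 * η ≤ (1 - η) ^ 3 := by
    nlinarith [sq_nonneg η, mul_nonneg hη0.le (sq_nonneg η)]
  have h3l : 0 ≤ 3 / l ∧ 3 / l ≤ 3 := ⟨by positivity, div_le_self (by norm_num) hl1⟩
  have hyB : y ≤ 2 * (C + Cs) + 3 := by
    rcases le_or_gt y (3 / l) with hle | hlt
    · linarith [abs_le.1 hwB]
    · have := (mul_le_mul_of_nonneg_right hcube (sub_pos.2 hlt).le).trans hw2
      have := mul_le_mul_of_nonneg_right (show (1 : ℝ) / 2 ≤ 1 - 3 * η by linarith)
        (sub_pos.2 hlt).le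
      linarith [abs_le.1 hwB]
  have hyw : y - w ≤ 3 / l + ε / 2 := by
    rcases le_or_gt y (3 / l) with hle | hlt
    · have : 0 ≤ T := hT ▸ progWeight_nonneg primeLog_nonneg primeLog_nonneg primeLog_nonneg N
      have : 0 ≤ w := hw ▸ div_nonneg this (sq_nonneg _)
      linarith
    · have := (mul_le_mul_of_nonneg_right hcube (sub_pos.2 hlt).le).trans hw2
      have := mul_le_mul_of_nonneg_left hyB hη0.le
      have := mul_nonneg hη0.le h3l.1
      linarith
  have h5 : (2 * C + 6) / l = 2 * (C / l) + 2 * (3 / l) := by ring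
  have h6 := abs_le.1 hwmain
  have : 0 ≤ C / l := by positivity
  exact abs_le.2 ⟨by linarith, by linarith⟩

/-- **The number of three-term progressions of primes.** -/
theorem tendsto_progCount : Tendsto
    (fun N : ℕ => (progCount N : ℝ) * Real.log N ^ 3 / (N : ℝ) ^ 2) atTop
    (𝓝 (pairSeries 2 / 4)) := by
  rw [Metric.tendsto_atTop]
  intro ε hε
  obtain ⟨N₁, h⟩ := exists_triples_asymptotic (show 0 < ε / 2 by positivity)
  obtain ⟨K, hK, hpow⟩ := ThreePrimes.exists_log_pow_le 3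
  refine ⟨max (max 2 N₁) ⌈(2 * K / ε + 1) ^ 2⌉₊, fun N hN => ?_⟩
  have h1 := h N (le_trans (le_trans (le_max_right _ _) (le_max_left _ _)) hN)
  have hN2 : 2 ≤ N := le_trans (le_trans (le_max_left _ _) (le_max_left _ _)) hN
  have hN1 : (1 : ℝ) ≤ N := by exact_mod_cast (show 1 ≤ N by omega)
  obtain ⟨hlo, hhi⟩ := card_progTriples_bounds N
  obtain ⟨q, hq⟩ : ∃ q : ℝ, q = Real.log N ^ 3 / (N : ℝ) ^ 2 := ⟨_, rfl⟩
  have hq0 : 0 ≤ q := hq ▸ div_nonneg (pow_nonneg (Real.log_natCast_nonneg N) 3) (sq_nonneg _)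
  rw [mul_div_assoc, ← hq] at h1
  rw [mul_div_assoc, ← hq, Real.dist_eq]
  have hNq : (N : ℝ) * q ≤ ε / 2 := by
    have h2 : 2 * K / ε + 1 ≤ √(N : ℝ) :=
      (Real.le_sqrt (by positivity) (Nat.cast_nonneg N)).2
        ((Nat.le_ceil _).trans (Nat.cast_le.2 (le_trans (le_max_right _ _) hN)))
    rw [hq, show (N : ℝ) * (Real.log N ^ 3 / (N : ℝ) ^ 2) = Real.log N ^ 3 / N by field_simp,
      div_le_iff₀ (by linarith)]
    refine (hpow N hN1).trans ?_
    have h4 : 2 * K / ε ≤ √(N : ℝ) := by linarith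
    rw [div_le_iff₀ hε] at h4
    have := mul_le_mul_of_nonneg_right h4 (Real.sqrt_nonneg (N : ℝ))
    rw [mul_right_comm (√(N : ℝ)), Real.mul_self_sqrt (Nat.cast_nonneg N)] at this
    linarith
  have a1 : 2 * ((progCount N : ℕ) : ℝ) * q ≤ ((progTriples N).card : ℝ) * q :=
    mul_le_mul_of_nonneg_right (by exact_mod_cast hlo) hq0
  have a2 : ((progTriples N).card : ℝ) * q ≤ (2 * ((progCount N : ℕ) : ℝ) + N) * q :=
    mul_le_mul_of_nonneg_right (by exact_mod_cast hhi) hq0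
  obtain ⟨u, v⟩ := abs_le.1 h1
  exact abs_lt.2 ⟨by linarith, by linarith⟩

end FA.PrimeProgressionCount
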